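import Mathlib

set_option autoImplicit false
set_option linter.style.haveILetI false
set_option linter.unusedSectionVars false

namespace Fermat.Agent.S21

open Module

noncomputable section

variable {Q : Type} [Fintype Q] [DecidableEq Q]

/-- functions invariant under a permutation -/
def inv (σ : Equiv.Perm Q) : Submodule ℂ (Q → ℂ) where
  carrier := {f | ∀ q, f (σ q) = f q}
  add_mem' := by
    intro f g hf hg q
    simp only [Pi.add_apply]
    rw [hf q, hg q]
  zero_mem' := by intro q; rfl
  smul_mem' := by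
    intro c f hf q
    simp only [Pi.smul_apply]
    rw [hf q]

lemma mem_inv {σ : Equiv.Perm Q} {f : Q → ℂ} : f ∈ inv σ ↔ ∀ q, f (σ q) = f q := Iff.rfl

lemma sum_comp_perm (σ : Equiv.Perm Q) (f : Q → ℂ) : ∑ q, f (σ q) = ∑ q, f q :=
  Equiv.sum_comp σ f

/-- the dot product pairing on pairs of functions -/
def pairing : ((Q → ℂ) × (Q → ℂ)) →ₗ[ℂ] Dual ℂ ((Q → ℂ) × (Q → ℂ)) :=
  LinearMap.mk₂ ℂ (fun p r => ∑ q, (p.1 q * r.1 q + p.2 q * r.2 q))
    (by intro a b c; simp only [Prod.fst_add, Prod.snd_add, Pi.add_apply]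
        rw [← Finset.sum_add_distrib]; exact Finset.sum_congr rfl fun q _ => by ring)
    (by intro c a b; simp only [Prod.smul_fst, Prod.smul_snd, Pi.smul_apply, smul_eq_mul]
        rw [Finset.mul_sum]; exact Finset.sum_congr rfl fun q _ => by ring)
    (by intro a b c; simp only [Prod.fst_add, Prod.snd_add, Pi.add_apply]
        rw [← Finset.sum_add_distrib]; exact Finset.sum_congr rfl fun q _ => by ring)
    (by intro c a b; simp only [Prod.smul_fst, Prod.smul_snd, Pi.smul_apply, smul_eq_mul]
        rw [Finset.mul_sum]; exact Finset.sum_congr rfl fun q _ => by ring)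

lemma pairing_apply (p r : (Q → ℂ) × (Q → ℂ)) :
    pairing p r = ∑ q, (p.1 q * r.1 q + p.2 q * r.2 q) := rfl

lemma pairing_injective : Function.Injective (pairing (Q := Q)) := by
  rw [injective_iff_map_eq_zero]
  intro p hp
  apply Prod.ext
  · funext q
    have := congrArg (fun θ => θ (Pi.single q 1, 0)) hp
    simpa [pairing_apply, Pi.single_apply] using this
  · funext q
    have := congrArg (fun θ => θ (0, Pi.single q 1)) hp
    simpa [pairing_apply, Pi.single_apply] using this

/-- the map whose range is the space of linear constraints -/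
def constraintMap (s u t : Equiv.Perm Q) :
    (inv s × inv u × inv t) →ₗ[ℂ] ((Q → ℂ) × (Q → ℂ)) :=
  LinearMap.prod
    ((inv s).subtype ∘ₗ LinearMap.fst ℂ _ _ -
      (inv t).subtype ∘ₗ LinearMap.snd ℂ _ _ ∘ₗ LinearMap.snd ℂ _ _)
    ((inv u).subtype ∘ₗ LinearMap.fst ℂ _ _ ∘ₗ LinearMap.snd ℂ _ _ +
      (inv t).subtype ∘ₗ LinearMap.snd ℂ _ _ ∘ₗ LinearMap.snd ℂ _ _)

lemma constraintMap_apply (s u t : Equiv.Perm Q) (x : inv s) (y : inv u) (τ : inv t) :
    constraintMap s u t (x, y, τ) = ((x : Q → ℂ) - τ, (y : Q → ℂ) + τ) := rfl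

/-- the constant functions -/
def consts : Submodule ℂ (Q → ℂ) := Submodule.span ℂ {fun _ => 1}

lemma finrank_consts_le : finrank ℂ (consts (Q := Q)) ≤ 1 :=
  (finrank_span_le_card _).trans (by simp)

lemma mem_consts_of_forall_eq {f : Q → ℂ} (h : ∀ q q', f q = f q') : f ∈ consts (Q := Q) := by
  by_cases hQ : Nonempty Q
  · obtain ⟨q₀⟩ := hQ
    have : f = f q₀ • (fun _ => (1 : ℂ)) := by
      funext q
      simp [h q q₀]
    rw [this]
    exact Submodule.smul_mem _ _ (Submodule.subset_span rfl)
  · have : f = 0 := by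
      funext q
      exact (hQ ⟨q⟩).elim
    rw [this]
    exact Submodule.zero_mem _

theorem finrank_le_of_cocycle_data (s u t : Equiv.Perm Q) (hut : u = s * t)
    (htrans : ∀ f : Q → ℂ, (∀ q, f (s q) = f q) → (∀ q, f (t q) = f q) → ∀ q q', f q = f q')
    {H : Type} [AddCommGroup H] [Module ℂ H] (Θ : H →ₗ[ℂ] (Q → ℂ) × (Q → ℂ))
    (h1 : ∀ φ q, (Θ φ).1 (s q) + (Θ φ).1 q = 0)
    (h2 : ∀ φ q, (Θ φ).2 (u (u q)) + (Θ φ).2 (u q) + (Θ φ).2 q = 0)
    (h3 : ∀ φ (τ : Q → ℂ), (∀ q, τ (t q) = τ q) → ∑ q, τ q * ((Θ φ).2 q - (Θ φ).1 q) = 0)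
    (h4 : ∀ φ (v : Q → ℂ), (∀ q, (Θ φ).1 q = v (s q) - v q) →
      (∀ q, (Θ φ).2 q = v (u q) - v q) → φ = 0) :
    Module.Finite ℂ H ∧
      finrank ℂ H + finrank ℂ (inv s) + finrank ℂ (inv u) + finrank ℂ (inv t) ≤
        Fintype.card Q + 2 := by
  have hΘinj : Function.Injective Θ := by
    rw [injective_iff_map_eq_zero]
    intro φ hφ
    exact h4 φ 0 (by intro q; simp [hφ]) (by intro q; simp [hφ])
  haveI hfin : Module.Finite ℂ H := Module.Finite.of_injective Θ hΘinj
  refine ⟨hfin, ?_⟩
  -- the coboundary map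
  let cb : (Q → ℂ) →ₗ[ℂ] (Q → ℂ) × (Q → ℂ) :=
    LinearMap.prod (LinearMap.funLeft ℂ ℂ s - LinearMap.id) (LinearMap.funLeft ℂ ℂ u - LinearMap.id)
  have hcb : ∀ v, cb v = (fun q => v (s q) - v q, fun q => v (u q) - v q) := fun v => rfl
  let Φ : (H × (Q → ℂ)) →ₗ[ℂ] (Q → ℂ) × (Q → ℂ) := Θ.coprod cb
  have hΦ : ∀ φ v, Φ (φ, v) = Θ φ + cb v := fun φ v => rfl
  -- kernel of Φ
  have hker : LinearMap.ker Φ ≤ (consts (Q := Q)).map (LinearMap.inr ℂ H (Q → ℂ)) := by
    rintro ⟨φ, v⟩ hv
    rw [LinearMap.mem_ker, hΦ, hcb] at hv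
    have e1 : ∀ q, (Θ φ).1 q = (-v) (s q) - (-v) q := by
      intro q
      have := congrFun (congrArg Prod.fst hv) q
      simp only [Prod.fst_add, Pi.add_apply, Prod.fst_zero, Pi.zero_apply] at this
      simp only [Pi.neg_apply]
      linear_combination this
    have e2 : ∀ q, (Θ φ).2 q = (-v) (u q) - (-v) q := by
      intro q
      have := congrFun (congrArg Prod.snd hv) q
      simp only [Prod.snd_add, Pi.add_apply, Prod.snd_zero, Pi.zero_apply] at this
      simp only [Pi.neg_apply]
      linear_combination this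
    have hφ : φ = 0 := h4 φ (-v) e1 e2
    subst hφ
    have hs : ∀ q, v (s q) = v q := by
      intro q
      have := e1 q
      simp only [map_zero, Prod.fst_zero, Pi.zero_apply, Pi.neg_apply] at this
      linear_combination this
    have hu' : ∀ q, v (u q) = v q := by
      intro q
      have := e2 q
      simp only [map_zero, Prod.snd_zero, Pi.zero_apply, Pi.neg_apply] at this
      linear_combination this
    have ht : ∀ q, v (t q) = v q := by
      intro q
      rw [← hs (t q), ← hu' q, hut]
      rfl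
    exact ⟨v, mem_consts_of_forall_eq (htrans v hs ht), rfl⟩
  have hker1 : finrank ℂ (LinearMap.ker Φ) ≤ 1 :=
    (Submodule.finrank_mono hker).trans ((Submodule.finrank_map_le _ _).trans finrank_consts_le)
  -- kernel of the constraint map
  have hkerC : LinearMap.ker (constraintMap s u t) ≤
      (consts (Q := Q)).comap ((inv t).subtype ∘ₗ LinearMap.snd ℂ _ _ ∘ₗ LinearMap.snd ℂ _ _) := by
    rintro ⟨x, y, τ⟩ hx
    rw [LinearMap.mem_ker, constraintMap_apply] at hx
    have e1 : (x : Q → ℂ) = τ := sub_eq_zero.mp (congrArg Prod.fst hx)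
    show (τ : Q → ℂ) ∈ consts
    refine mem_consts_of_forall_eq (htrans _ ?_ τ.2)
    rw [← e1]
    exact x.2
  have hkerC1 : finrank ℂ (LinearMap.ker (constraintMap s u t)) ≤ 1 := by
    let π : LinearMap.ker (constraintMap s u t) →ₗ[ℂ] consts (Q := Q) :=
      LinearMap.codRestrict _ (((inv t).subtype ∘ₗ LinearMap.snd ℂ _ _ ∘ₗ LinearMap.snd ℂ _ _) ∘ₗ
        (LinearMap.ker (constraintMap s u t)).subtype) (fun z => hkerC z.2)
    have hπ : Function.Injective π := by
      rw [injective_iff_map_eq_zero]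
      rintro ⟨⟨x, y, τ⟩, hx⟩ h0
      have hτ : (τ : Q → ℂ) = 0 := congrArg Subtype.val h0
      rw [LinearMap.mem_ker, constraintMap_apply] at hx
      have e1 : (x : Q → ℂ) = τ := sub_eq_zero.mp (congrArg Prod.fst hx)
      have e2 : (y : Q → ℂ) + τ = 0 := congrArg Prod.snd hx
      apply Subtype.ext
      show (x, y, τ) = 0
      have hx0 : x = 0 := Subtype.ext (by rw [e1, hτ]; rfl)
      have hy0 : y = 0 := Subtype.ext (by rw [hτ, add_zero] at e2; rw [e2]; rfl)
      have hτ0 : τ = 0 := Subtype.ext hτ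
      rw [hx0, hy0, hτ0]
      rfl
    exact (LinearMap.finrank_le_finrank_of_injective hπ).trans finrank_consts_le
  -- orthogonality
  have horth : ∀ z ∈ LinearMap.range Φ, pairing z ∈
      (LinearMap.range (constraintMap s u t)).dualAnnihilator := by
    rintro _ ⟨⟨φ, v⟩, rfl⟩
    rw [Submodule.mem_dualAnnihilator]
    rintro _ ⟨⟨x, y, τ⟩, rfl⟩
    rw [constraintMap_apply, pairing_apply, hΦ, hcb]
    simp only [Prod.fst_add, Prod.snd_add, Pi.add_apply, Pi.sub_apply]
    have hx := x.2
    have hy := y.2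
    have hτ := τ.2
    rw [mem_inv] at hx hy hτ
    set a := (Θ φ).1 with ha
    set b := (Θ φ).2 with hb
    -- the individual orthogonality relations
    have r1 : ∑ q, a q * (x : Q → ℂ) q = 0 := by
      have e : ∑ q, a q * (x : Q → ℂ) q = ∑ q, a (s q) * (x : Q → ℂ) q := by
        rw [← sum_comp_perm s]
        exact Finset.sum_congr rfl fun q _ => by rw [hx q]
      have e' : ∑ q, a q * (x : Q → ℂ) q + ∑ q, a (s q) * (x : Q → ℂ) q = 0 := by
        rw [← Finset.sum_add_distrib]
        refine Finset.sum_eq_zero fun q _ => ?_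
        rw [← add_mul, add_comm, h1 φ q, zero_mul]
      rw [← e] at e'
      linear_combination e' / 2
    have r2 : ∑ q, b q * (y : Q → ℂ) q = 0 := by
      have e : ∑ q, b q * (y : Q → ℂ) q = ∑ q, b (u q) * (y : Q → ℂ) q := by
        rw [← sum_comp_perm u]
        exact Finset.sum_congr rfl fun q _ => by rw [hy q]
      have e2 : ∑ q, b (u q) * (y : Q → ℂ) q = ∑ q, b (u (u q)) * (y : Q → ℂ) q := by
        rw [← sum_comp_perm u]
        exact Finset.sum_congr rfl fun q _ => by rw [hy q]
      have e' : ∑ q, b (u (u q)) * (y : Q → ℂ) q + ∑ q, b (u q) * (y : Q → ℂ) q +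
          ∑ q, b q * (y : Q → ℂ) q = 0 := by
        rw [← Finset.sum_add_distrib, ← Finset.sum_add_distrib]
        refine Finset.sum_eq_zero fun q _ => ?_
        rw [← add_mul, ← add_mul, h2 φ q, zero_mul]
      rw [← e2, ← e] at e'
      linear_combination e' / 3
    have r3 := h3 φ τ hτ
    have r4 : ∑ q, (v (s q) - v q) * (x : Q → ℂ) q = 0 := by
      simp only [sub_mul]
      rw [Finset.sum_sub_distrib, sub_eq_zero, ← sum_comp_perm s (fun q => v q * (x : Q → ℂ) q)]
      exact Finset.sum_congr rfl fun q _ => by rw [hx q]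
    have r5 : ∑ q, (v (u q) - v q) * (y : Q → ℂ) q = 0 := by
      simp only [sub_mul]
      rw [Finset.sum_sub_distrib, sub_eq_zero, ← sum_comp_perm u (fun q => v q * (y : Q → ℂ) q)]
      exact Finset.sum_congr rfl fun q _ => by rw [hy q]
    have r6 : ∑ q, (v (u q) - v (s q)) * (τ : Q → ℂ) q = 0 := by
      simp only [sub_mul]
      rw [Finset.sum_sub_distrib, sub_eq_zero,
        ← sum_comp_perm t (fun q => v (s q) * (τ : Q → ℂ) q)]
      refine Finset.sum_congr rfl fun q _ => ?_
      rw [hτ q, hut]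
      rfl
    have key : ∀ q, (a q + (v (s q) - v q)) * ((x : Q → ℂ) q - (τ : Q → ℂ) q) +
        (b q + (v (u q) - v q)) * ((y : Q → ℂ) q + (τ : Q → ℂ) q) =
        a q * (x : Q → ℂ) q + b q * (y : Q → ℂ) q + (τ : Q → ℂ) q * (b q - a q) +
        (v (s q) - v q) * (x : Q → ℂ) q + (v (u q) - v q) * (y : Q → ℂ) q +
        (v (u q) - v (s q)) * (τ : Q → ℂ) q := by
      intro q; ring
    simp only [key]
    rw [Finset.sum_add_distrib, Finset.sum_add_distrib, Finset.sum_add_distrib,
      Finset.sum_add_distrib, Finset.sum_add_distrib, r1, r2, r3, r4, r5, r6]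
    simp
  -- dimension count
  have d1 : finrank ℂ (LinearMap.range Φ) ≤
      finrank ℂ (LinearMap.range (constraintMap s u t)).dualAnnihilator := by
    let ψ : LinearMap.range Φ →ₗ[ℂ] (LinearMap.range (constraintMap s u t)).dualAnnihilator :=
      LinearMap.codRestrict _ (pairing ∘ₗ (LinearMap.range Φ).subtype) (fun z => horth z z.2)
    have hψ : Function.Injective ψ := by
      intro z z' h
      exact Subtype.ext (pairing_injective (congrArg Subtype.val h))
    exact LinearMap.finrank_le_finrank_of_injective hψ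
  have d2 := Subspace.finrank_add_finrank_dualAnnihilator_eq
    (LinearMap.range (constraintMap s u t))
  have d3 := LinearMap.finrank_range_add_finrank_ker Φ
  have d4 := LinearMap.finrank_range_add_finrank_ker (constraintMap s u t)
  rw [finrank_prod, finrank_fintype_fun_eq_card] at d2 d3
  rw [finrank_prod, finrank_prod] at d4
  omega

lemma trace_funLeft (σ : Equiv.Perm Q) :
    LinearMap.trace ℂ (Q → ℂ) (LinearMap.funLeft ℂ ℂ σ) = (Nat.card {q // σ q = q} : ℂ) := by
  rw [LinearMap.trace_eq_matrix_trace ℂ (Pi.basisFun ℂ Q), Matrix.trace]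
  have : ∀ q, (LinearMap.toMatrix (Pi.basisFun ℂ Q) (Pi.basisFun ℂ Q)
      (LinearMap.funLeft ℂ ℂ σ)).diag q = if σ q = q then 1 else 0 := by
    intro q
    simp [Matrix.diag, LinearMap.toMatrix_apply, LinearMap.funLeft_apply, Pi.single_apply]
  simp only [this]
  rw [Finset.sum_boole, Nat.card_eq_fintype_card, Fintype.card_subtype]

/-- Burnside-type count of the dimension of the invariants of a permutation of finite order -/
theorem mul_finrank_inv (σ : Equiv.Perm Q) (n : ℕ) (hn : 0 < n) (hσ : σ ^ n = 1) :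
    n * finrank ℂ (inv σ) = ∑ i ∈ Finset.range n, Nat.card {q // (σ ^ i) q = q} := by
  let P : (Q → ℂ) →ₗ[ℂ] (Q → ℂ) :=
    (1 / n : ℂ) • ∑ i ∈ Finset.range n, LinearMap.funLeft ℂ ℂ (σ ^ i : Equiv.Perm Q)
  have hP : ∀ x q, P x q = (1 / n : ℂ) * ∑ i ∈ Finset.range n, x ((σ ^ i) q) := by
    intro x q
    simp [P, LinearMap.sum_apply, Finset.sum_apply, LinearMap.funLeft_apply]
  have hn' : (n : ℂ) ≠ 0 := Nat.cast_ne_zero.mpr hn.ne'
  have hproj : LinearMap.IsProj (inv σ) P := by
    refine ⟨fun x => ?_, fun x hx => ?_⟩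
    · rw [mem_inv]
      intro q
      rw [hP, hP]
      congr 1
      have e : ∀ i, x ((σ ^ i) (σ q)) = x ((σ ^ (i + 1)) q) := by
        intro i
        rw [pow_succ]
        rfl
      simp only [e]
      have h1 := Finset.sum_range_succ (fun i => x ((σ ^ i) q)) n
      have h2 := Finset.sum_range_succ' (fun i => x ((σ ^ i) q)) n
      rw [h1] at h2
      simp only [hσ, pow_zero] at h2
      exact (add_right_cancel h2).symm
    · funext q
      rw [hP]
      have e : ∀ i, x ((σ ^ i) q) = x q := by
        intro i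
        induction i with
        | zero => rfl
        | succ i ih =>
          rw [pow_succ']
          show x (σ ((σ ^ i) q)) = x q
          rw [hx, ih]
      simp only [e, Finset.sum_const, Finset.card_range, nsmul_eq_mul]
      field_simp
  have htr := hproj.trace
  have htr' : LinearMap.trace ℂ (Q → ℂ) P =
      (1 / n : ℂ) * ∑ i ∈ Finset.range n, (Nat.card {q // (σ ^ i) q = q} : ℂ) := by
    simp only [P, map_smul, map_sum, trace_funLeft, smul_eq_mul]
  rw [htr'] at htr
  have : (n : ℂ) * (finrank ℂ (inv σ) : ℂ) =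
      ∑ i ∈ Finset.range n, (Nat.card {q // (σ ^ i) q = q} : ℂ) := by
    rw [← htr]
    field_simp
  exact_mod_cast this

theorem two_mul_finrank_inv (s : Equiv.Perm Q) (hs : s * s = 1) :
    2 * finrank ℂ (inv s) = Fintype.card Q + Nat.card {q // s q = q} := by
  rw [mul_finrank_inv s 2 (by norm_num) (by rw [pow_two, hs])]
  simp [Finset.sum_range_succ]

theorem three_mul_finrank_inv (u : Equiv.Perm Q) (hu : u * u * u = 1) :
    3 * finrank ℂ (inv u) = Fintype.card Q + 2 * Nat.card {q // u q = q} := by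
  rw [mul_finrank_inv u 3 (by norm_num) (by rw [pow_succ, pow_two, hu])]
  have h2 : Nat.card {q // (u ^ 2) q = q} = Nat.card {q // u q = q} := by
    apply Nat.card_congr
    refine Equiv.subtypeEquivRight fun q => ?_
    constructor
    · intro h
      have h3 : u (u (u q)) = q := by
        have := congrArg (fun σ : Equiv.Perm Q => σ q) hu
        exact this
      have h4 : u (u q) = q := by rw [pow_two] at h; exact h
      rw [h4] at h3
      exact h3
    · intro h
      rw [pow_two]
      show u (u q) = q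
      rw [h, h]
  simp only [Finset.sum_range_succ, Finset.sum_range_zero, pow_zero, pow_one, h2]
  simp
  ring

/-- the number of orbits is at most the dimension of the invariants -/
theorem card_orbits_le_finrank_inv {G : Type} [Group G] [MulAction G Q] (g : G) :
    Nat.card (MulAction.orbitRel.Quotient (Subgroup.zpowers g) Q) ≤
      finrank ℂ (inv (MulAction.toPerm g : Equiv.Perm Q)) := by
  classical
  letI : Fintype (MulAction.orbitRel.Quotient (Subgroup.zpowers g) Q) := Fintype.ofFinite _
  let L : (MulAction.orbitRel.Quotient (Subgroup.zpowers g) Q → ℂ) →ₗ[ℂ]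
      inv (MulAction.toPerm g : Equiv.Perm Q) :=
    LinearMap.codRestrict _ (LinearMap.funLeft ℂ ℂ (Quotient.mk _)) (by
      intro f
      rw [mem_inv]
      intro q
      simp only [LinearMap.funLeft_apply]
      congr 1
      apply Quotient.sound
      exact ⟨⟨g, Subgroup.mem_zpowers g⟩, rfl⟩)
  have hL : Function.Injective L := by
    intro f f' h
    funext x
    induction x using Quotient.inductionOn with
    | h q => exact congrFun (congrArg Subtype.val h) q
  have := LinearMap.finrank_le_finrank_of_injective hL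
  rwa [finrank_fintype_fun_eq_card, ← Nat.card_eq_fintype_card] at this

end

end Fermat.Agent.S21
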