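import Mathlib
import Fermat.Prelude.Def_ModularCurve_PeriodHomPair
import Fermat.Agent.S20.LamDefs
import Fermat.Agent.S21.LinAlg

set_option autoImplicit false
set_option linter.style.haveILetI false
set_option linter.unusedSectionVars false

namespace Fermat.Agent.S21

open CongruenceSubgroup ModularCurve ModularCurve.Period Module
open Fermat.Agent.S20 (Quo sl exists_mk mk_eq_mk_iff sl_smul_mk sl_mul sl_one)
open scoped MatrixGroups

noncomputable section

variable {N : ℕ}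

/-- coset representatives -/
def rep (q : Quo N) : SL(2, ℤ) := (exists_mk q).choose

lemma mk_rep (q : Quo N) : (QuotientGroup.mk (sl (rep q)) : Quo N) = q :=
  (exists_mk q).choose_spec.symm

lemma coc_mem (g : SL(2, ℤ)) (q : Quo N) : (rep (sl g • q))⁻¹ * g * rep q ∈ Gamma0 N := by
  rw [mul_assoc, ← mk_eq_mk_iff, mk_rep, ← sl_smul_mk, mk_rep]

/-- the `Γ₀(N)`-valued cocycle -/
def coc (g : SL(2, ℤ)) (q : Quo N) : Gamma0 N := ⟨(rep (sl g • q))⁻¹ * g * rep q, coc_mem g q⟩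

lemma coc_mul (g h : SL(2, ℤ)) (q : Quo N) : coc (g * h) q = coc g (sl h • q) * coc h q := by
  apply Subtype.ext
  show (rep (sl (g * h) • q))⁻¹ * (g * h) * rep q =
    ((rep (sl g • (sl h • q)))⁻¹ * g * rep (sl h • q)) * ((rep (sl h • q))⁻¹ * h * rep q)
  rw [sl_mul, mul_smul]
  group

lemma coe_coc_of_fixed {g : SL(2, ℤ)} {q : Quo N} (h : sl g • q = q) :
    ((coc g q : Gamma0 N) : SL(2, ℤ)) = (rep q)⁻¹ * g * rep q := by
  show (rep (sl g • q))⁻¹ * g * rep q = _
  rw [h]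

lemma trace_conj (ρ g : SL(2, ℤ)) :
    ((ρ⁻¹ * g * ρ : SL(2, ℤ)) : Matrix (Fin 2) (Fin 2) ℤ).trace =
      (g : Matrix (Fin 2) (Fin 2) ℤ).trace := by
  rw [Matrix.SpecialLinearGroup.coe_mul, Matrix.SpecialLinearGroup.coe_mul, Matrix.trace_mul_cycle,
    ← Matrix.SpecialLinearGroup.coe_mul, mul_inv_cancel, Matrix.SpecialLinearGroup.coe_one,
    Matrix.one_mul]

variable (φ : Additive (Gamma0 N) →+ ℂ)

/-- the cocycle attached to a homomorphism -/
def cc (g : SL(2, ℤ)) (q : Quo N) : ℂ := φ (Additive.ofMul (coc g q))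

lemma cc_mul (g h : SL(2, ℤ)) (q : Quo N) : cc φ (g * h) q = cc φ g (sl h • q) + cc φ h q := by
  unfold cc
  rw [coc_mul, ofMul_mul, map_add]

lemma cc_one (q : Quo N) : cc φ 1 q = 0 := by
  have := cc_mul φ 1 1 q
  rw [mul_one, sl_one, one_smul] at this
  linear_combination -this

variable {φ}

lemma cc_eq_zero_of_fixed (hφ : IsParabolicHom (Gamma0 N) φ) {g : SL(2, ℤ)} {q : Quo N}
    (h : sl g • q = q) (htr : (g : Matrix (Fin 2) (Fin 2) ℤ).trace ^ 2 = 4) : cc φ g q = 0 := by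
  apply hφ
  rw [coe_coc_of_fixed h, trace_conj, htr]

lemma neg_one_smul' (q : Quo N) : sl (-1) • q = q := by
  obtain ⟨δ, rfl⟩ := exists_mk q
  rw [sl_smul_mk, mk_eq_mk_iff]
  have : (-1 * δ)⁻¹ * δ = -1 := by
    rw [neg_one_mul, show (-δ)⁻¹ = -δ⁻¹ from by
      rw [inv_eq_iff_mul_eq_one]; simp]
    simp
  rw [this, Gamma0_mem]
  simp

lemma S_mul_S : (ModularGroup.S * ModularGroup.S : SL(2, ℤ)) = -1 := by
  ext i j
  rw [Matrix.SpecialLinearGroup.coe_mul, ModularGroup.coe_S]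
  fin_cases i <;> fin_cases j <;> simp [Matrix.mul_apply, Fin.sum_univ_two]

lemma ST_cube : (ModularGroup.S * ModularGroup.T * (ModularGroup.S * ModularGroup.T) *
    (ModularGroup.S * ModularGroup.T) : SL(2, ℤ)) = -1 := by
  ext i j
  simp only [Matrix.SpecialLinearGroup.coe_mul, ModularGroup.coe_S, ModularGroup.coe_T]
  fin_cases i <;> fin_cases j <;> simp [Matrix.mul_apply, Fin.sum_univ_two]

lemma trace_neg_one : ((-1 : SL(2, ℤ)) : Matrix (Fin 2) (Fin 2) ℤ).trace ^ 2 = 4 := by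
  simp

lemma cc_neg_one (hφ : IsParabolicHom (Gamma0 N) φ) (q : Quo N) : cc φ (-1) q = 0 :=
  cc_eq_zero_of_fixed hφ (neg_one_smul' q) trace_neg_one

lemma cc_T_pow (n : ℕ) (q : Quo N) :
    cc φ (ModularGroup.T ^ n) q = ∑ i ∈ Finset.range n, cc φ ModularGroup.T
      (sl (ModularGroup.T ^ i) • q) := by
  induction n with
  | zero => simp [cc_one]
  | succ n ih => rw [pow_succ', cc_mul, ih, Finset.sum_range_succ, add_comm]

lemma cc_inv (g : SL(2, ℤ)) (q : Quo N) : cc φ g⁻¹ q = - cc φ g (sl g⁻¹ • q) := by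
  have := cc_mul φ g g⁻¹ q
  rw [mul_inv_cancel, cc_one] at this
  linear_combination -this

/-- the subgroup on which the cocycle is the coboundary of `v` -/
def cobSubgroup (φ : Additive (Gamma0 N) →+ ℂ) (v : Quo N → ℂ) : Subgroup SL(2, ℤ) where
  carrier := {g | ∀ q, cc φ g q = v (sl g • q) - v q}
  one_mem' := by
    intro q
    rw [cc_one, sl_one, one_smul, sub_self]
  mul_mem' := by
    intro g h hg hh q
    rw [cc_mul, hg, hh, sl_mul, mul_smul]
    ring
  inv_mem' := by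
    intro g hg q
    rw [cc_inv, hg, ← mul_smul, ← sl_mul, mul_inv_cancel, sl_one, one_smul]
    ring

lemma cobSubgroup_eq_top {v : Quo N → ℂ}
    (hS : ∀ q, cc φ ModularGroup.S q = v (sl ModularGroup.S • q) - v q)
    (hU : ∀ q, cc φ (ModularGroup.S * ModularGroup.T) q =
      v (sl (ModularGroup.S * ModularGroup.T) • q) - v q) : cobSubgroup φ v = ⊤ := by
  rw [eq_top_iff, ← SpecialLinearGroup.SL2Z_generators, Subgroup.closure_le]
  have h1 : ModularGroup.S ∈ cobSubgroup φ v := hS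
  have h2 : ModularGroup.S * ModularGroup.T ∈ cobSubgroup φ v := hU
  rintro g (rfl | rfl)
  · exact h1
  · have := mul_mem (inv_mem h1) h2
    rwa [inv_mul_cancel_left] at this

lemma rep_one_mem : rep (QuotientGroup.mk (sl 1) : Quo N) ∈ Gamma0 N := by
  have := mk_rep (QuotientGroup.mk (sl 1) : Quo N)
  rw [mk_eq_mk_iff, mul_one] at this
  simpa using inv_mem this

lemma eq_zero_of_coboundary {v : Quo N → ℂ}
    (hS : ∀ q, cc φ ModularGroup.S q = v (sl ModularGroup.S • q) - v q)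
    (hU : ∀ q, cc φ (ModularGroup.S * ModularGroup.T) q =
      v (sl (ModularGroup.S * ModularGroup.T) • q) - v q) : φ = 0 := by
  have htop := cobSubgroup_eq_top hS hU
  apply DFunLike.ext
  intro γ
  obtain ⟨γ, rfl⟩ := Additive.ofMul.surjective γ
  have hγ : (γ : SL(2, ℤ)) ∈ cobSubgroup φ v := by rw [htop]; trivial
  have hfix : sl (γ : SL(2, ℤ)) • (QuotientGroup.mk (sl 1) : Quo N) = QuotientGroup.mk (sl 1) := by
    rw [sl_smul_mk, mk_eq_mk_iff, mul_one, mul_one]
    exact inv_mem γ.2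
  have h0 := hγ (QuotientGroup.mk (sl 1))
  rw [hfix, sub_self] at h0
  have hcoc : coc (γ : SL(2, ℤ)) (QuotientGroup.mk (sl 1) : Quo N) =
      (⟨_, rep_one_mem⟩ : Gamma0 N)⁻¹ * γ * ⟨_, rep_one_mem⟩ := by
    apply Subtype.ext
    rw [coe_coc_of_fixed hfix]
    rfl
  unfold cc at h0
  rw [hcoc, ofMul_mul, ofMul_mul, ofMul_inv, map_add, map_add, map_neg] at h0
  simpa using h0

/-- invariance under `S` and `T` implies constancy -/
def invSubgroup (f : Quo N → ℂ) : Subgroup SL(2, ℤ) where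
  carrier := {g | ∀ q, f (sl g • q) = f q}
  one_mem' := by
    intro q
    rw [sl_one, one_smul]
  mul_mem' := by
    intro g h hg hh q
    rw [sl_mul, mul_smul, hg, hh]
  inv_mem' := by
    intro g hg q
    rw [← hg (sl g⁻¹ • q), ← mul_smul, ← sl_mul, mul_inv_cancel, sl_one, one_smul]

lemma const_of_invariant {f : Quo N → ℂ} (hS : ∀ q, f (sl ModularGroup.S • q) = f q)
    (hT : ∀ q, f (sl ModularGroup.T • q) = f q) (q q' : Quo N) : f q = f q' := by
  have htop : invSubgroup f = ⊤ := by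
    rw [eq_top_iff, ← SpecialLinearGroup.SL2Z_generators, Subgroup.closure_le]
    rintro g (rfl | rfl)
    · exact hS
    · exact hT
  have key : ∀ q : Quo N, f q = f (QuotientGroup.mk (sl 1)) := by
    intro q
    obtain ⟨δ, rfl⟩ := exists_mk q
    have hδ : δ ∈ invSubgroup f := by rw [htop]; trivial
    have := hδ (QuotientGroup.mk (sl 1))
    rwa [sl_smul_mk, mul_one] at this
  rw [key q, key q']

lemma trace_T_pow (n : ℕ) :
    ((ModularGroup.T ^ n : SL(2, ℤ)) : Matrix (Fin 2) (Fin 2) ℤ).trace ^ 2 = 4 := by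
  have := ModularGroup.coe_T_zpow (n : ℤ)
  rw [zpow_natCast] at this
  rw [this]
  simp [Matrix.trace_fin_two]

lemma T_pow_smul (q : Quo N) : sl (ModularGroup.T ^ N) • q = q := by
  have := Fermat.Agent.S20.sl_T_pow_smul q
  rwa [zpow_natCast] at this

lemma cc_T_pow_N (hφ : IsParabolicHom (Gamma0 N) φ) (q : Quo N) :
    cc φ (ModularGroup.T ^ N) q = 0 :=
  cc_eq_zero_of_fixed hφ (T_pow_smul q) (trace_T_pow N)

end

end Fermat.Agent.S21
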