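import Mathlib
import Fermat.Prelude.Def_ModularCurve_PeriodHomPair
import Fermat.Prelude.Def_ModularCurve_GenusNumerics
import Fermat.Agent.S20.CardQuo
import Fermat.Agent.S20.Fixed
import Fermat.Agent.S20.Cusps
import Fermat.Agent.S21.Cocycle

set_option autoImplicit false
set_option linter.style.haveILetI false
set_option linter.unusedSectionVars false

namespace Fermat.Agent.S21

open CongruenceSubgroup ModularCurve ModularCurve.Period Module
open Fermat.Agent.S20 (Quo sl exists_mk mk_eq_mk_iff sl_smul_mk sl_mul sl_one)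
open scoped MatrixGroups

noncomputable section

variable {N : ℕ}

/-- the cocycle map -/
def Theta (N : ℕ) : ↥(parabolicHoms ℂ (Gamma0 N) ℂ) →ₗ[ℂ] (Quo N → ℂ) × (Quo N → ℂ) where
  toFun φ := (cc φ.1 ModularGroup.S, cc φ.1 (ModularGroup.S * ModularGroup.T))
  map_add' := by
    intro φ ψ
    rfl
  map_smul' := by
    intro c φ
    rfl

lemma Theta_fst (φ : ↥(parabolicHoms ℂ (Gamma0 N) ℂ)) : (Theta N φ).1 = cc φ.1 ModularGroup.S := rfl

lemma Theta_snd (φ : ↥(parabolicHoms ℂ (Gamma0 N) ℂ)) :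
    (Theta N φ).2 = cc φ.1 (ModularGroup.S * ModularGroup.T) := rfl

lemma tau_T_pow {τ : Quo N → ℂ} (hτ : ∀ q, τ (sl ModularGroup.T • q) = τ q) (i : ℕ) (q : Quo N) :
    τ (sl (ModularGroup.T ^ i) • q) = τ q := by
  induction i with
  | zero => rw [pow_zero, sl_one, one_smul]
  | succ i ih => rw [pow_succ', sl_mul, mul_smul, hτ, ih]

variable [NeZero N]

lemma sum_tau_cc_T {φ : Additive (Gamma0 N) →+ ℂ} (hφ : IsParabolicHom (Gamma0 N) φ)
    {τ : Quo N → ℂ} (hτ : ∀ q, τ (sl ModularGroup.T • q) = τ q) :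
    ∑ q, τ q * cc φ ModularGroup.T q = 0 := by
  have h1 : ∀ i : ℕ, ∑ q, τ q * cc φ ModularGroup.T (sl (ModularGroup.T ^ i) • q) =
      ∑ q, τ q * cc φ ModularGroup.T q := by
    intro i
    rw [← Equiv.sum_comp (MulAction.toPerm (sl (ModularGroup.T ^ i)) : Equiv.Perm (Quo N))
      (fun q => τ q * cc φ ModularGroup.T q)]
    apply Finset.sum_congr rfl
    intro q _
    simp only [MulAction.toPerm_apply]
    rw [tau_T_pow hτ]
  have h2 : ∑ q, τ q * cc φ (ModularGroup.T ^ N) q = (N : ℂ) * ∑ q, τ q * cc φ ModularGroup.T q := by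
    simp_rw [cc_T_pow, Finset.mul_sum]
    rw [Finset.sum_comm]
    simp_rw [h1]
    rw [Finset.sum_const, Finset.card_range, nsmul_eq_mul, Finset.mul_sum]
  have h3 : ∑ q, τ q * cc φ (ModularGroup.T ^ N) q = 0 := by
    apply Finset.sum_eq_zero
    intro q _
    rw [cc_T_pow_N hφ, mul_zero]
  rw [h3] at h2
  have hN : (N : ℂ) ≠ 0 := Nat.cast_ne_zero.mpr (NeZero.ne N)
  exact (mul_eq_zero.mp h2.symm).resolve_left hN

/-- the three permutations -/
def pS (N : ℕ) : Equiv.Perm (Quo N) := MulAction.toPerm (sl ModularGroup.S)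
def pU (N : ℕ) : Equiv.Perm (Quo N) := MulAction.toPerm (sl (ModularGroup.S * ModularGroup.T))
def pT (N : ℕ) : Equiv.Perm (Quo N) := MulAction.toPerm (sl ModularGroup.T)

omit [NeZero N] in
lemma pS_apply (q : Quo N) : pS N q = sl ModularGroup.S • q := rfl
omit [NeZero N] in
lemma pU_apply (q : Quo N) : pU N q = sl (ModularGroup.S * ModularGroup.T) • q := rfl
omit [NeZero N] in
lemma pT_apply (q : Quo N) : pT N q = sl ModularGroup.T • q := rfl

omit [NeZero N] in
lemma pU_eq : pU N = pS N * pT N := by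
  ext q
  rw [Equiv.Perm.mul_apply, pU_apply, pS_apply, pT_apply, sl_mul, mul_smul]

omit [NeZero N] in
lemma pS_sq : pS N * pS N = 1 := by
  ext q
  rw [Equiv.Perm.mul_apply, pS_apply, pS_apply, ← mul_smul, ← sl_mul, S_mul_S, neg_one_smul']
  rfl

omit [NeZero N] in
lemma pU_cube : pU N * pU N * pU N = 1 := by
  ext q
  rw [Equiv.Perm.mul_apply, Equiv.Perm.mul_apply, pU_apply, pU_apply, pU_apply, ← mul_smul,
    ← mul_smul, ← sl_mul, ← sl_mul, ST_cube, neg_one_smul']
  rfl

theorem finrank_add_le (N : ℕ) [NeZero N] :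
    Module.Finite ℂ (parabolicHoms ℂ (Gamma0 N) ℂ) ∧
      finrank ℂ (parabolicHoms ℂ (Gamma0 N) ℂ) + finrank ℂ (inv (pS N)) + finrank ℂ (inv (pU N)) +
        finrank ℂ (inv (pT N)) ≤ Fintype.card (Quo N) + 2 := by
  apply finrank_le_of_cocycle_data (pS N) (pU N) (pT N) pU_eq _ (Theta N)
  · -- h1
    intro φ q
    rw [Theta_fst, pS_apply, ← cc_mul, S_mul_S, cc_neg_one φ.2]
  · -- h2
    intro φ q
    rw [Theta_snd, pU_apply, pU_apply, ← cc_mul, ← cc_mul, ST_cube, cc_neg_one φ.2]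
  · -- h3
    intro φ τ hτ
    rw [Theta_fst, Theta_snd]
    have h1 : ∀ q, τ q * (cc φ.1 (ModularGroup.S * ModularGroup.T) q - cc φ.1 ModularGroup.S q) =
        (τ (pT N q) * cc φ.1 ModularGroup.S (pT N q) - τ q * cc φ.1 ModularGroup.S q) +
          τ q * cc φ.1 ModularGroup.T q := by
      intro q
      rw [cc_mul, hτ, pT_apply]
      ring
    simp_rw [h1]
    rw [Finset.sum_add_distrib, Finset.sum_sub_distrib,
      Equiv.sum_comp (pT N) (fun q => τ q * cc φ.1 ModularGroup.S q), sub_self, zero_add]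
    exact sum_tau_cc_T φ.2 hτ
  · -- h4
    intro φ v hS hU
    apply Subtype.ext
    exact eq_zero_of_coboundary hS hU
  · -- transitivity
    intro f hS hT q q'
    exact const_of_invariant hS hT q q'

/-- D -/
theorem finrank_parabolicHoms_le (N : ℕ) [NeZero N] :
    Module.Finite ℂ (parabolicHoms ℂ (Gamma0 N) ℂ) ∧
    (Module.finrank ℂ (parabolicHoms ℂ (Gamma0 N) ℂ) : ℚ) ≤ 2 * genusFormula N := by
  obtain ⟨hfin, hle⟩ := finrank_add_le N
  refine ⟨hfin, ?_⟩
  have h2 := two_mul_finrank_inv (pS N) pS_sq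
  have h3 := three_mul_finrank_inv (pU N) pU_cube
  have h4 : Nat.card (MulAction.orbitRel.Quotient (Subgroup.zpowers (sl ModularGroup.T)) (Quo N)) ≤
      finrank ℂ (inv (pT N)) := card_orbits_le_finrank_inv (sl ModularGroup.T)
  rw [Fermat.Agent.S20.card_orbits_T] at h4
  have hc : Fintype.card (Quo N) = dedekindPsi N := by
    rw [← Nat.card_eq_fintype_card, Fermat.Agent.S20.card_quo]
  have hfS : Nat.card {q : Quo N // pS N q = q} = nuTwo N := Fermat.Agent.S20.card_fixed_S N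
  have hfU : Nat.card {q : Quo N // pU N q = q} = nuThree N := Fermat.Agent.S20.card_fixed_ST N
  rw [hc, hfS] at h2
  rw [hc, hfU] at h3
  rw [hc] at hle
  unfold genusFormula
  have h2' : (2 : ℚ) * finrank ℂ (inv (pS N)) = dedekindPsi N + nuTwo N := by exact_mod_cast h2
  have h3' : (3 : ℚ) * finrank ℂ (inv (pU N)) = dedekindPsi N + 2 * nuThree N := by
    exact_mod_cast h3
  have h4' : (cuspCount N : ℚ) ≤ finrank ℂ (inv (pT N)) := by exact_mod_cast h4
  have hle' : (finrank ℂ (parabolicHoms ℂ (Gamma0 N) ℂ) : ℚ) + finrank ℂ (inv (pS N)) +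
      finrank ℂ (inv (pU N)) + finrank ℂ (inv (pT N)) ≤ dedekindPsi N + 2 := by
    exact_mod_cast hle
  linarith

end

end Fermat.Agent.S21
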