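import Mathlib

set_option autoImplicit false

/-!
# S21 (P1): primitive of a periodic holomorphic function vanishing at `i∞`
-/

namespace Fermat.Agent.S21

open UpperHalfPlane Filter Topology Function
open scoped MatrixGroups ModularForm Manifold Real

theorem periodic_comp_ofComplex_of_vadd {h : ℝ} (g : ℍ → ℂ)
    (hper : ∀ z : ℍ, g (h +ᵥ z) = g z) : Function.Periodic (g ∘ ofComplex) h := by
  intro w
  by_cases! hw : 0 < Complex.im w
  · have : 0 < Complex.im (w + h) := by simp [hw]
    simp only [comp_apply, ofComplex_apply_of_im_pos this, ofComplex_apply_of_im_pos hw]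
    rw [← hper ⟨w, hw⟩]
    congr 1
    ext
    simp [add_comm]
  · have : Complex.im (w + h) ≤ 0 := by simpa using hw
    simp [ofComplex_apply_of_im_nonpos this, ofComplex_apply_of_im_nonpos hw]

theorem hasDerivAt_qParam (h : ℝ) (z : ℂ) :
    HasDerivAt (Function.Periodic.qParam h)
      (Function.Periodic.qParam h z * (2 * π * Complex.I / h)) z := by
  simpa only [id_eq, mul_one] using! (((hasDerivAt_id z).const_mul _).div_const _).cexp

theorem exists_primitive_of_periodic {h : ℝ} (hh : 0 < h) (g : ℍ → ℂ) (hg : MDiff g)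
    (hper : ∀ z : ℍ, g (h +ᵥ z) = g z) (hzero : IsZeroAtImInfty g) :
    ∃ G : ℍ → ℂ, (∀ τ : ℍ, HasDerivAt (G ∘ ofComplex) (g τ) ↑τ) ∧ Tendsto G atImInfty (𝓝 0) := by
  have hP : Function.Periodic (g ∘ ofComplex) h := periodic_comp_ofComplex_of_vadd g hper
  have hbd : IsBoundedAtImInfty g := hzero.boundedAtFilter
  have hφd : DifferentiableOn ℂ (cuspFunction h g) (Metric.ball 0 1) :=
    differentiableOn_cuspFunction_ball hh hP hg hbd
  have hφ0 : cuspFunction h g 0 = 0 := by
    rw [cuspFunction_apply_zero hh (analyticAt_cuspFunction_zero hh hP hg hbd) hP,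
      hzero.valueAtInfty_eq_zero]
  have hψd : DifferentiableOn ℂ (dslope (cuspFunction h g) 0) (Metric.ball 0 1) :=
    (Complex.differentiableOn_dslope (Metric.ball_mem_nhds _ one_pos)).mpr hφd
  obtain ⟨Ψ, hΨ0, hΨ⟩ := hψd.isExactOn_ball.with_val_at 0 0
  have h2pi : (2 * π * Complex.I : ℂ) ≠ 0 := Complex.two_pi_I_ne_zero
  have hhc : (h : ℂ) ≠ 0 := by exact_mod_cast hh.ne'
  refine ⟨fun τ => (h / (2 * π * Complex.I)) * Ψ (Function.Periodic.qParam h τ), ?_, ?_⟩
  · intro τ
    have hq : ‖Function.Periodic.qParam h τ‖ < 1 :=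
      Function.Periodic.norm_qParam_lt_one hh τ.im_pos
    have h1 : HasDerivAt Ψ (dslope (cuspFunction h g) 0 (Function.Periodic.qParam h τ))
        (Function.Periodic.qParam h τ) := hΨ _ (by simpa using hq)
    have h3 := (h1.comp (τ : ℂ) (hasDerivAt_qParam h τ)).const_mul (h / (2 * π * Complex.I))
    have hval : (h / (2 * π * Complex.I)) *
        (dslope (cuspFunction h g) 0 (Function.Periodic.qParam h τ) *
          (Function.Periodic.qParam h τ * (2 * π * Complex.I / h))) = g τ := by
      have h4 := sub_smul_dslope (cuspFunction h g) 0 (Function.Periodic.qParam h τ)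
      rw [hφ0, sub_zero, sub_zero, smul_eq_mul, eq_cuspFunction τ hh.ne' hP] at h4
      rw [← h4]
      field_simp
    rw [hval] at h3
    refine h3.congr_of_eventuallyEq ?_
    have hopen : {z : ℂ | 0 < z.im} ∈ 𝓝 (τ : ℂ) :=
      (isOpen_lt continuous_const Complex.continuous_im).mem_nhds τ.im_pos
    filter_upwards [hopen] with z hz
    simp only [comp_apply, ofComplex_apply_of_im_pos hz]
  · have hc : ContinuousAt Ψ 0 := (hΨ 0 (by simp)).continuousAt
    have h1 : Tendsto (fun τ : ℍ => Ψ (Function.Periodic.qParam h τ)) atImInfty (𝓝 (Ψ 0)) :=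
      hc.tendsto.comp (qParam_tendsto_atImInfty hh)
    rw [hΨ0] at h1
    simpa using h1.const_mul (h / (2 * π * Complex.I))

end Fermat.Agent.S21
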