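import Mathlib
import Fermat.Agent.S21.Prim

set_option autoImplicit false

/-!
# S21 (M): a maximum principle on `Γ₀(N) \ ℍ*`
-/

namespace Fermat.Agent.S21

open UpperHalfPlane CongruenceSubgroup Filter Topology Function
open scoped MatrixGroups ModularForm Manifold Real

theorem mdiff_comp_smul (φ : ℍ → ℂ) (hφ : MDiff φ) (δ : SL(2, ℤ)) :
    MDiff (fun z : ℍ => φ (δ • z)) := by
  have h1 : (fun z : ℍ => φ (δ • z)) = φ ∣[(0 : ℤ)] δ := by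
    funext z
    rw [ModularForm.SL_slash_apply]
    simp
  rw [h1]
  exact hφ.slash 0 _

theorem exists_rep_fd (N : ℕ) (φ : ℍ → ℂ)
    (hinv : ∀ γ ∈ Gamma0 N, ∀ z : ℍ, ‖φ (γ • z)‖ = ‖φ z‖) (z : ℍ) :
    ∃ (c : SL(2, ℤ) ⧸ Gamma0 N) (w : ℍ), 1 / 2 ≤ w.im ∧
      ‖φ z‖ = ‖φ ((Quotient.out c : SL(2, ℤ))⁻¹ • w)‖ := by
  obtain ⟨g, hg⟩ := ModularGroup.exists_smul_mem_fd z
  obtain ⟨h, hh⟩ := QuotientGroup.mk_out_eq_mul (Gamma0 N) g
  refine ⟨QuotientGroup.mk g, g • z, ?_, ?_⟩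
  · have h3 := ModularGroup.three_le_four_mul_im_sq_of_mem_fd hg
    have h4 := (g • z).im_pos
    by_contra hlt
    push Not at hlt
    nlinarith
  · rw [hh]
    have h1 : (g * (h : SL(2, ℤ)))⁻¹ • g • z = (h : SL(2, ℤ))⁻¹ • z := by
      rw [← mul_smul]
      congr 1
      group
    rw [h1, hinv _ (inv_mem h.2)]

theorem eq_const_of_norm_invariant (N : ℕ) [NeZero N] (φ : ℍ → ℂ) (hφ : MDiff φ)
    (hinv : ∀ γ ∈ Gamma0 N, ∀ z : ℍ, ‖φ (γ • z)‖ = ‖φ z‖)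
    (hper : ∀ (δ : SL(2, ℤ)) (z : ℍ), φ (δ • ((N : ℝ) +ᵥ z)) = φ (δ • z))
    (hbdd : ∀ δ : SL(2, ℤ), IsBoundedAtImInfty fun z : ℍ => φ (δ • z)) :
    ∃ c : ℂ, ∀ z, φ z = c := by
  classical
  have hN : (0 : ℝ) < N := by exact_mod_cast Nat.pos_of_ne_zero (NeZero.ne N)
  have : Finite (SL(2, ℤ) ⧸ Gamma0 N) := Subgroup.finite_quotient_of_finiteIndex
  have : Fintype (SL(2, ℤ) ⧸ Gamma0 N) := Fintype.ofFinite _
  let δ : SL(2, ℤ) ⧸ Gamma0 N → SL(2, ℤ) := fun c => (Quotient.out c : SL(2, ℤ))⁻¹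
  let Ψ : SL(2, ℤ) ⧸ Gamma0 N → ℂ → ℂ := fun c => cuspFunction N (fun z : ℍ => φ (δ c • z))
  have hP : ∀ c, Function.Periodic ((fun z : ℍ => φ (δ c • z)) ∘ ofComplex) (N : ℝ) := fun c =>
    periodic_comp_ofComplex_of_vadd _ (hper (δ c))
  have hΨd : ∀ c, DifferentiableOn ℂ (Ψ c) (Metric.ball 0 1) := fun c =>
    differentiableOn_cuspFunction_ball hN (hP c) (mdiff_comp_smul φ hφ _) (hbdd _)
  have hΨ : ∀ c (z : ℍ), Ψ c (Function.Periodic.qParam N z) = φ (δ c • z) := fun c z =>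
    eq_cuspFunction z hN.ne' (hP c)
  set ρ : ℝ := Real.exp (-π / N) with hρ
  have hρ1 : ρ < 1 := by
    rw [hρ, Real.exp_lt_one_iff]
    exact div_neg_of_neg_of_pos (neg_lt_zero.mpr Real.pi_pos) hN
  have hρ0 : 0 ≤ ρ := (Real.exp_pos _).le
  have hK : IsCompact (Metric.closedBall (0 : ℂ) ρ) := isCompact_closedBall _ _
  have hKsub : Metric.closedBall (0 : ℂ) ρ ⊆ Metric.ball 0 1 := Metric.closedBall_subset_ball hρ1
  have hmax : ∀ c, ∃ q ∈ Metric.closedBall (0 : ℂ) ρ,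
      ∀ q' ∈ Metric.closedBall (0 : ℂ) ρ, ‖Ψ c q'‖ ≤ ‖Ψ c q‖ := by
    intro c
    obtain ⟨q, hq, hq'⟩ := hK.exists_isMaxOn ⟨0, by simpa using hρ0⟩
      ((hΨd c).continuousOn.mono hKsub).norm
    exact ⟨q, hq, fun q' h' => hq' h'⟩
  choose qm hqm hqm' using hmax
  obtain ⟨c0, -, hc0⟩ := Finset.exists_max_image (Finset.univ : Finset (SL(2, ℤ) ⧸ Gamma0 N))
    (fun c => ‖Ψ c (qm c)‖) ⟨QuotientGroup.mk 1, Finset.mem_univ _⟩
  have hbound : ∀ z, ‖φ z‖ ≤ ‖Ψ c0 (qm c0)‖ := by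
    intro z
    obtain ⟨c, w, hw, hzw⟩ := exists_rep_fd N φ hinv z
    rw [hzw]
    change ‖φ (δ c • w)‖ ≤ _
    rw [← hΨ c w]
    refine (hqm' c _ ?_).trans (hc0 c (Finset.mem_univ _))
    rw [mem_closedBall_zero_iff, Function.Periodic.norm_qParam, hρ]
    apply Real.exp_le_exp.mpr
    rw [div_le_div_iff_of_pos_right hN]
    have : (0 : ℝ) < π := Real.pi_pos
    have hw' : 1 / 2 ≤ (w : ℂ).im := hw
    nlinarith
  have hIsMax : IsMaxOn (norm ∘ Ψ c0) (Metric.ball 0 1) (qm c0) := by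
    intro q hq
    change ‖Ψ c0 q‖ ≤ ‖Ψ c0 (qm c0)‖
    rcases eq_or_ne q 0 with rfl | hq0
    · exact hqm' c0 0 (by simpa using hρ0)
    · have hq1 : ‖q‖ < 1 := by simpa using hq
      have him := Function.Periodic.im_invQParam_pos_of_norm_lt_one hN hq1 hq0
      have h1 := hΨ c0 ⟨_, him⟩
      rw [UpperHalfPlane.coe_mk, Function.Periodic.qParam_right_inv hN.ne' hq0] at h1
      rw [h1]
      exact hbound _
  have hconst := Complex.eqOn_of_isPreconnected_of_isMaxOn_norm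
    (convex_ball (0 : ℂ) 1).isPreconnected Metric.isOpen_ball (hΨd c0) (hKsub (hqm c0)) hIsMax
  refine ⟨Ψ c0 (qm c0), fun z => ?_⟩
  have h1 := hΨ c0 ((δ c0)⁻¹ • z)
  rw [smul_inv_smul] at h1
  rw [← h1]
  exact hconst (by
    simpa using Function.Periodic.norm_qParam_lt_one hN ((δ c0)⁻¹ • z).im_pos)

end Fermat.Agent.S21
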