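import Mathlib
import Fermat.Prelude.Def_ModularCurve_PeriodHomPair

set_option autoImplicit false

/-!
# S21: functions on the upper half plane with vanishing derivative; derivative of `F (δ • w)`
-/

namespace Fermat.Agent.S21

open UpperHalfPlane CongruenceSubgroup ModularCurve ModularCurve.Period Filter Topology
open scoped MatrixGroups ModularForm Manifold

/-- a function on `ℍ` with vanishing derivative is constant. -/
theorem exists_const_of_hasDerivAt_zero (G : ℍ → ℂ)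
    (hG : ∀ τ : ℍ, HasDerivAt (G ∘ ofComplex) 0 ↑τ) : ∃ c : ℂ, ∀ z : ℍ, G z = c := by
  have hpre : IsPreconnected upperHalfPlaneSet := (convex_halfSpace_im_gt 0).isPreconnected
  have hd : DifferentiableOn ℂ (G ∘ ofComplex) upperHalfPlaneSet := fun w hw =>
    (hG ⟨w, hw⟩).differentiableAt.differentiableWithinAt
  have hd' : upperHalfPlaneSet.EqOn (deriv (G ∘ ofComplex)) 0 := fun w hw => (hG ⟨w, hw⟩).deriv
  obtain ⟨a, ha⟩ := isOpen_upperHalfPlaneSet.exists_is_const_of_deriv_eq_zero hpre hd hd'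
  refine ⟨a, fun z => ?_⟩
  have := ha z z.im_pos
  simpa using this

/-- two primitives of the same function differ by a constant. -/
theorem exists_const_of_hasDerivAt_eq (G₁ G₂ : ℍ → ℂ) (g : ℍ → ℂ)
    (h₁ : ∀ τ : ℍ, HasDerivAt (G₁ ∘ ofComplex) (g τ) ↑τ)
    (h₂ : ∀ τ : ℍ, HasDerivAt (G₂ ∘ ofComplex) (g τ) ↑τ) :
    ∃ c : ℂ, ∀ z : ℍ, G₁ z - G₂ z = c := by
  apply exists_const_of_hasDerivAt_zero (fun z => G₁ z - G₂ z)
  intro τ
  have := (h₁ τ).sub (h₂ τ)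
  rw [sub_self] at this
  exact this

/-- chain rule for the Möbius action. -/
theorem hasDerivAt_comp_smul (F : ℍ → ℂ) (f : ℍ → ℂ)
    (hF : ∀ τ : ℍ, HasDerivAt (F ∘ ofComplex) (f τ) ↑τ) (δ : SL(2, ℤ)) (τ : ℍ) :
    HasDerivAt ((fun w : ℍ => F (δ • w)) ∘ ofComplex) ((f ∣[(2 : ℤ)] δ) τ) ↑τ := by
  have hdet : (0 : ℝ) < ((δ : GL (Fin 2) ℝ)).val.det := by
    rw [← Matrix.GeneralLinearGroup.val_det_apply]; simp
  have hdet1 : ((δ : GL (Fin 2) ℝ)).val.det = 1 := by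
    rw [← Matrix.GeneralLinearGroup.val_det_apply]; simp
  have h1 : HasDerivAt (fun w ↦ ↑((δ : GL (Fin 2) ℝ) • ofComplex w) : ℂ → ℂ)
      ((((δ : GL (Fin 2) ℝ)).val.det : ℂ) / denom (δ : GL (Fin 2) ℝ) τ ^ 2) ↑τ :=
    (hasStrictDerivAt_smul hdet τ).hasDerivAt
  have h2 : HasDerivAt (F ∘ ofComplex) (f ((δ : GL (Fin 2) ℝ) • τ))
      ↑((δ : GL (Fin 2) ℝ) • ofComplex (τ : ℂ)) := by
    rw [ofComplex_apply]
    exact hF _
  have h3 := h2.comp (τ : ℂ) h1
  have h4 : ((F ∘ ofComplex) ∘ fun w ↦ ↑((δ : GL (Fin 2) ℝ) • ofComplex w) : ℂ → ℂ) =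
      (fun w : ℍ => F (δ • w)) ∘ ofComplex := by
    funext w
    simp only [Function.comp_apply, ofComplex_apply]
    rfl
  rw [h4] at h3
  have hval : (f ∣[(2 : ℤ)] δ) τ = f ((δ : GL (Fin 2) ℝ) • τ) *
      ((((δ : GL (Fin 2) ℝ)).val.det : ℂ) / denom (δ : GL (Fin 2) ℝ) τ ^ 2) := by
    rw [ModularForm.SL_slash_apply, hdet1]
    simp only [Complex.ofReal_one, one_div]
    rw [zpow_neg]
    rfl
  rw [hval]
  exact h3

end Fermat.Agent.S21
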