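import Mathlib
import Fermat.Prelude.Def_ModularCurve_PeriodHomPair
import Fermat.Agent.S21.Const
import Fermat.Agent.S21.Prim

set_option autoImplicit false

/-!
# S21 (P2): existence of equivariant primitives
-/

namespace Fermat.Agent.S21

open UpperHalfPlane CongruenceSubgroup ModularCurve ModularCurve.Period Filter Topology
open scoped MatrixGroups ModularForm Manifold

theorem denom_T_zpow (n : ℤ) (z : ℍ) : denom (ModularGroup.T ^ n : SL(2, ℤ)) z = 1 := by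
  simp [denom, ModularGroup.coe_T_zpow, -map_zpow]

theorem slash_periodic {N : ℕ} (f : CuspForm (Gamma0 N) 2) (δ : SL(2, ℤ)) (z : ℍ) :
    ((⇑f : ℍ → ℂ) ∣[(2 : ℤ)] δ) ((N : ℝ) +ᵥ z) = ((⇑f : ℍ → ℂ) ∣[(2 : ℤ)] δ) z := by
  have h1 : ((N : ℝ) +ᵥ z) = (ModularGroup.T ^ (N : ℤ) : SL(2, ℤ)) • z := by
    ext
    rw [ModularGroup.coe_T_zpow_smul_eq]
    simp [add_comm]
  have hmem : δ * ModularGroup.T ^ (N : ℤ) * δ⁻¹ ∈ Gamma0 N := by
    have h2 : ModularGroup.T ^ (N : ℤ) ∈ Gamma N :=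
      CongruenceSubgroup.ModularGroup_T_pow_mem_Gamma N N dvd_rfl
    have h3 := (CongruenceSubgroup.Gamma_normal N).conj_mem _ h2 δ
    rw [Gamma0_mem]
    exact (Gamma_mem.mp h3).2.2.1
  have h4 : ((⇑f : ℍ → ℂ) ∣[(2 : ℤ)] δ) ∣[(2 : ℤ)] (ModularGroup.T ^ (N : ℤ) : SL(2, ℤ)) =
      (⇑f : ℍ → ℂ) ∣[(2 : ℤ)] δ := by
    rw [← SlashAction.slash_mul]
    have h5 : δ * ModularGroup.T ^ (N : ℤ) = (δ * ModularGroup.T ^ (N : ℤ) * δ⁻¹) * δ := by group
    rw [h5, SlashAction.slash_mul]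
    congr 1
    exact SlashInvariantFormClass.slash_action_eq f _ ⟨_, hmem, rfl⟩
  have h6 := congrFun h4 z
  rw [ModularForm.SL_slash_apply] at h6
  have hden : denom (ModularGroup.T ^ (N : ℤ) : SL(2, ℤ)) z = 1 := denom_T_zpow _ z
  rw [hden, one_zpow, mul_one] at h6
  rw [h1, h6]

/-- P2 -/
theorem exists_hasEquivariantPrimitive (N : ℕ) [NeZero N] (f : CuspForm (Gamma0 N) 2) :
    ∃ F : ℍ → ℂ, HasEquivariantPrimitive N f F := by
  have hN : (0 : ℝ) < N := by exact_mod_cast Nat.pos_of_ne_zero (NeZero.ne N)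
  -- primitives of all the translates
  have hprim : ∀ δ : SL(2, ℤ), ∃ G : ℍ → ℂ,
      (∀ τ : ℍ, HasDerivAt (G ∘ ofComplex) (((⇑f : ℍ → ℂ) ∣[(2 : ℤ)] δ) τ) ↑τ) ∧
        Tendsto G atImInfty (𝓝 0) := by
    intro δ
    refine exists_primitive_of_periodic hN _ ?_ (slash_periodic f δ) ?_
    · exact (CuspFormClass.holo f).slash 2 _
    · exact CuspFormClass.zero_at_infty_slash f δ
  obtain ⟨F, hF1, hF2⟩ := hprim 1
  have hF1' : ∀ τ : ℍ, HasDerivAt (F ∘ ofComplex) (f τ) ↑τ := by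
    intro τ
    have := hF1 τ
    rwa [SlashAction.slash_one] at this
  refine ⟨F, hF1', hF2, ?_, ?_⟩
  · intro γ
    have h1 : ∀ τ : ℍ, HasDerivAt ((fun w : ℍ => F ((γ : SL(2, ℤ)) • w)) ∘ ofComplex) (f τ) ↑τ := by
      intro τ
      have h2 := hasDerivAt_comp_smul F f hF1' (γ : SL(2, ℤ)) τ
      have h3 : (⇑f : ℍ → ℂ) ∣[(2 : ℤ)] (γ : SL(2, ℤ)) = ⇑f :=
        SlashInvariantFormClass.slash_action_eq f _ ⟨_, γ.2, rfl⟩
      rwa [h3] at h2
    exact exists_const_of_hasDerivAt_eq _ _ _ h1 hF1'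
  · intro δ
    obtain ⟨G, hG1, hG2⟩ := hprim δ
    obtain ⟨c, hc⟩ := exists_const_of_hasDerivAt_eq _ _ _ (hasDerivAt_comp_smul F f hF1' δ) hG1
    refine ⟨c, ?_⟩
    have h1 : (fun w : ℍ => F (δ • w)) = fun w => c + G w := by
      funext w
      rw [← hc w]; ring
    rw [h1]
    simpa using hG2.const_add c

end Fermat.Agent.S21
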