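import Mathlib
import Fermat.Prelude.Def_ModularCurve_PeriodHomPair
import Fermat.Agent.S21.Const
import Fermat.Agent.S21.Equivariant

set_option autoImplicit false

/-!
# S21 (P3, P4): the period map evaluated through any equivariant primitive; linearity
-/

namespace Fermat.Agent.S21

open UpperHalfPlane CongruenceSubgroup ModularCurve ModularCurve.Period Filter Topology
open scoped MatrixGroups ModularForm Manifold

/-- P3 -/
theorem periodMap_apply {N : ℕ} {f : CuspForm (Gamma0 N) 2} {F : ℍ → ℂ}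
    (hF : HasEquivariantPrimitive N f F) (γ : Gamma0 N) (z : ℍ) :
    periodMap N f (Additive.ofMul γ) = F ((γ : SL(2, ℤ)) • z) - F z := by
  obtain ⟨F₀, h₀, h⟩ := periodMap_def N f hF
  rw [h, IsEquivariantPrimitive.periodHom_apply, ← h₀.2.2.1.sub_eq_period γ z]
  obtain ⟨c, hc⟩ := exists_const_of_hasDerivAt_eq F₀ F _ h₀.1 hF.1
  have h1 := hc ((γ : SL(2, ℤ)) • z)
  have h2 := hc z
  linear_combination h1 - h2

theorem HasEquivariantPrimitive_add {N : ℕ} {f g : CuspForm (Gamma0 N) 2} {F G : ℍ → ℂ}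
    (hF : HasEquivariantPrimitive N f F) (hG : HasEquivariantPrimitive N g G) :
    HasEquivariantPrimitive N (f + g) (fun z => F z + G z) := by
  refine ⟨?_, ?_, ?_, ?_⟩
  · intro τ
    exact (hF.1 τ).add (hG.1 τ)
  · simpa using hF.2.1.add hG.2.1
  · intro γ
    obtain ⟨c, hc⟩ := hF.2.2.1 γ
    obtain ⟨d, hd⟩ := hG.2.2.1 γ
    refine ⟨c + d, fun z => ?_⟩
    linear_combination hc z + hd z
  · intro δ
    obtain ⟨L, hL⟩ := hF.2.2.2 δ
    obtain ⟨M, hM⟩ := hG.2.2.2 δ
    exact ⟨L + M, hL.add hM⟩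

theorem HasEquivariantPrimitive_smul {N : ℕ} {f : CuspForm (Gamma0 N) 2} {F : ℍ → ℂ}
    (hF : HasEquivariantPrimitive N f F) (a : ℂ) :
    HasEquivariantPrimitive N (a • f) (fun z => a * F z) := by
  refine ⟨?_, ?_, ?_, ?_⟩
  · intro τ
    exact (hF.1 τ).const_mul a
  · simpa using hF.2.1.const_mul a
  · intro γ
    obtain ⟨c, hc⟩ := hF.2.2.1 γ
    refine ⟨a * c, fun z => ?_⟩
    linear_combination a * hc z
  · intro δ
    obtain ⟨L, hL⟩ := hF.2.2.2 δ
    exact ⟨a * L, hL.const_mul a⟩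

/-- P4 -/
theorem existsPeriodMapLinear (N : ℕ) [NeZero N] : ExistsPeriodMapLinear N := by
  refine ⟨{ toFun := periodMap N, map_add' := ?_, map_smul' := ?_ }, fun f => rfl⟩
  · intro f g
    obtain ⟨F, hF⟩ := exists_hasEquivariantPrimitive N f
    obtain ⟨G, hG⟩ := exists_hasEquivariantPrimitive N g
    refine AddMonoidHom.ext fun γ => ?_
    obtain ⟨γ, rfl⟩ := Additive.ofMul.surjective γ
    rw [AddMonoidHom.add_apply, periodMap_apply hF γ UpperHalfPlane.I,
      periodMap_apply hG γ UpperHalfPlane.I,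
      periodMap_apply (HasEquivariantPrimitive_add hF hG) γ UpperHalfPlane.I]
    ring
  · intro a f
    obtain ⟨F, hF⟩ := exists_hasEquivariantPrimitive N f
    refine AddMonoidHom.ext fun γ => ?_
    obtain ⟨γ, rfl⟩ := Additive.ofMul.surjective γ
    rw [RingHom.id_apply, AddMonoidHom.smul_apply, periodMap_apply hF γ UpperHalfPlane.I,
      periodMap_apply (HasEquivariantPrimitive_smul hF a) γ UpperHalfPlane.I, smul_eq_mul]
    ring

end Fermat.Agent.S21
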