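import Mathlib
import Fermat.Prelude.Def_ModularCurve_PeriodHomPair
import Fermat.Agent.S21.PeriodMap

set_option autoImplicit false

/-!
# S21 (P5): the period map takes values in the parabolic homomorphisms
-/

namespace Fermat.Agent.S21

open UpperHalfPlane CongruenceSubgroup ModularCurve ModularCurve.Period Filter Topology
open scoped MatrixGroups ModularForm Manifold

/-- A binary quadratic form of discriminant zero has a primitive isotropic vector. -/
theorem exists_coprime_isotropic (a b c d : ℤ) (hdet : a * d - b * c = 1)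
    (htr : (a + d) ^ 2 = 4) :
    ∃ x y u v : ℤ, u * x + v * y = 1 ∧ c * x ^ 2 + (d - a) * x * y - b * y ^ 2 = 0 := by
  by_cases hc : c = 0
  · exact ⟨1, 0, 1, 0, by ring, by rw [hc]; ring⟩
  · have hg : 0 < Int.gcd (a - d) (2 * c) := by
      apply Int.gcd_pos_of_ne_zero_right
      simpa using hc
    obtain ⟨x, y, hxy, hx, hy⟩ := Int.exists_gcd_one hg
    set g : ℤ := (Int.gcd (a - d) (2 * c) : ℤ) with hgdef
    refine ⟨x, y, Int.gcdA x y, Int.gcdB x y, ?_, ?_⟩
    · have := Int.gcd_eq_gcd_ab x y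
      rw [hxy] at this
      push_cast at this
      linarith
    · have h1 : 2 * c * x + (d - a) * y = 0 := by
        have : d - a = -(x * g) := by rw [← hx]; ring
        rw [hy, this]; ring
      have h2 : 4 * c * (c * x ^ 2 + (d - a) * x * y - b * y ^ 2) = 0 := by
        have : 4 * c * (c * x ^ 2 + (d - a) * x * y - b * y ^ 2) =
            (2 * c * x + (d - a) * y) ^ 2 - ((a + d) ^ 2 - 4 * (a * d - b * c)) * y ^ 2 := by ring
        rw [this, h1, htr, hdet]; ring
      have h4c : 4 * c ≠ 0 := by simpa using hc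
      exact (mul_eq_zero.mp h2).resolve_left h4c

/-- A parabolic (or `± 1`) element of `SL(2, ℤ)` is conjugate to an upper triangular one. -/
theorem exists_conj_c_eq_zero (γ : SL(2, ℤ))
    (htr : (γ : Matrix (Fin 2) (Fin 2) ℤ).trace ^ 2 = 4) :
    ∃ δ : SL(2, ℤ), (δ⁻¹ * γ * δ) 1 0 = 0 := by
  have hdet : γ 0 0 * γ 1 1 - γ 0 1 * γ 1 0 = 1 := by
    have := γ.2
    rwa [Matrix.det_fin_two] at this
  rw [Matrix.trace_fin_two] at htr
  obtain ⟨x, y, u, v, h1, h2⟩ := exists_coprime_isotropic _ _ _ _ hdet htr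
  have hd : (!![x, -v; y, u] : Matrix (Fin 2) (Fin 2) ℤ).det = 1 := by
    rw [Matrix.det_fin_two_of]; linarith
  let δ : SL(2, ℤ) := ⟨!![x, -v; y, u], hd⟩
  have hδ : (δ : Matrix (Fin 2) (Fin 2) ℤ) = !![x, -v; y, u] := rfl
  refine ⟨δ, ?_⟩
  rw [Matrix.SpecialLinearGroup.coe_mul, Matrix.SpecialLinearGroup.coe_mul,
    Matrix.SpecialLinearGroup.coe_inv, hδ, Matrix.adjugate_fin_two_of]
  simp only [Matrix.mul_apply, Fin.sum_univ_two]
  simp
  linear_combination h2

theorem tendsto_T_zpow_smul_atImInfty (n : ℤ) :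
    Tendsto (fun w : ℍ => (ModularGroup.T ^ n : SL(2, ℤ)) • w) atImInfty atImInfty := by
  rw [atImInfty, tendsto_comap_iff]
  have : (im ∘ fun w : ℍ => (ModularGroup.T ^ n : SL(2, ℤ)) • w) = im := by
    funext w
    exact ModularGroup.im_T_zpow_smul w n
  rw [this]
  exact tendsto_comap

/-- P5 -/
theorem periodMap_mem_parabolicHoms (N : ℕ) [NeZero N] (f : CuspForm (Gamma0 N) 2) :
    periodMap N f ∈ parabolicHoms ℂ (Gamma0 N) ℂ := by
  rw [mem_parabolicHoms_iff]
  intro γ hγ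
  obtain ⟨F, hF⟩ := exists_hasEquivariantPrimitive N f
  obtain ⟨δ, hδ⟩ := exists_conj_c_eq_zero (γ : SL(2, ℤ)) hγ
  obtain ⟨n, hn⟩ := ModularGroup.exists_eq_T_zpow_of_c_eq_zero hδ
  obtain ⟨L, hL⟩ := hF.2.2.2 δ
  have h1 : ∀ w : ℍ, periodMap N f (Additive.ofMul γ) =
      F (δ • ((ModularGroup.T ^ n : SL(2, ℤ)) • w)) - F (δ • w) := by
    intro w
    rw [periodMap_apply hF γ (δ • w), ← hn w, ← mul_smul, ← mul_smul]
    congr 3
    group
  have h2 : Tendsto (fun w : ℍ => F (δ • ((ModularGroup.T ^ n : SL(2, ℤ)) • w)) - F (δ • w))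
      atImInfty (𝓝 (L - L)) :=
    (hL.comp (tendsto_T_zpow_smul_atImInfty n)).sub hL
  have h3 : Tendsto (fun _ : ℍ => periodMap N f (Additive.ofMul γ)) atImInfty (𝓝 (L - L)) := by
    refine h2.congr fun w => (h1 w).symm
  rw [sub_self] at h3
  exact tendsto_nhds_unique tendsto_const_nhds h3

end Fermat.Agent.S21
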