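import Mathlib
import Fermat.Prelude.Def_ModularCurve_PeriodHomPair
import Fermat.Agent.S21.Parabolic
import Fermat.Agent.S21.MaxPrinciple

set_option autoImplicit false

/-!
# S21 (I): injectivity of the Eichler–Shimura period pairing
-/

namespace Fermat.Agent.S21

open UpperHalfPlane CongruenceSubgroup ModularCurve ModularCurve.Period Filter Topology
open scoped MatrixGroups ModularForm Manifold ComplexConjugate

theorem jConjSL_smul_J (γ : SL(2, ℤ)) (z : ℍ) : (jConjSL γ) • (J • z) = J • (γ • z) := by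
  ext
  rw [coe_specialLinearGroup_apply, coe_J_smul, coe_J_smul, coe_specialLinearGroup_apply]
  simp only [jConjSL_coe, jConjMat_apply_zero_zero, jConjMat_apply_zero_one,
    jConjMat_apply_one_zero, jConjMat_apply_one_one, map_div₀, map_add, map_mul]
  simp only [algebraMap_int_eq, eq_intCast, Int.cast_neg, Complex.ofReal_neg, Complex.ofReal_intCast,
    map_intCast]
  rw [← neg_div]
  congr 1 <;> ring

theorem tendsto_J_smul_atImInfty : Tendsto (fun w : ℍ => J • w) atImInfty atImInfty := by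
  rw [atImInfty, tendsto_comap_iff]
  have : (im ∘ fun w : ℍ => J • w) = im := by
    funext w
    show (J • w).im = w.im
    rw [← coe_im, coe_J_smul]
    simp
  rw [this]
  exact tendsto_comap

/-- the holomorphic reflection `z ↦ conj (G (-conj z))`. -/
theorem hasDerivAt_reflect (G g : ℍ → ℂ) (hG : ∀ τ : ℍ, HasDerivAt (G ∘ ofComplex) (g τ) ↑τ)
    (τ : ℍ) : HasDerivAt ((fun z : ℍ => conj (G (J • z))) ∘ ofComplex) (-conj (g (J • τ))) ↑τ := by
  have h1 := (hG (J • τ)).conj_conj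
  have h2 : conj ((J • τ : ℍ) : ℂ) = -(τ : ℂ) := by
    rw [coe_J_smul]; simp
  rw [h2] at h1
  have h3 : HasDerivAt ((conj ∘ (G ∘ ofComplex) ∘ conj) ∘ fun w : ℂ => -w)
      (conj (g (J • τ)) * (-1)) (τ : ℂ) :=
    HasDerivAt.comp (h₂ := conj ∘ (G ∘ ofComplex) ∘ conj) (τ : ℂ) h1 (hasDerivAt_neg (τ : ℂ))
  rw [mul_neg_one] at h3
  refine h3.congr_of_eventuallyEq ?_
  have hopen : {w : ℂ | 0 < w.im} ∈ 𝓝 (τ : ℂ) :=
    (isOpen_lt continuous_const Complex.continuous_im).mem_nhds τ.im_pos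
  filter_upwards [hopen] with w hw
  simp only [Function.comp_apply]
  rw [J_smul, ofComplex_apply_of_im_pos hw]
  simp

theorem deriv_eq_zero_of_re_invariant (N : ℕ) [NeZero N] (U u : ℍ → ℂ)
    (hU : ∀ τ : ℍ, HasDerivAt (U ∘ ofComplex) (u τ) ↑τ)
    (hinv : ∀ γ ∈ Gamma0 N, ∀ z : ℍ, (U (γ • z)).re = (U z).re)
    (hper : ∀ (δ : SL(2, ℤ)) (z : ℍ), U (δ • ((N : ℝ) +ᵥ z)) = U (δ • z))
    (hlim : ∀ δ : SL(2, ℤ), ∃ L : ℂ, Tendsto (fun z : ℍ => U (δ • z)) atImInfty (𝓝 L)) :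
    ∀ τ, u τ = 0 := by
  have hd : ∀ τ : ℍ, HasDerivAt ((fun z => Complex.exp (U z)) ∘ ofComplex)
      (Complex.exp (U τ) * u τ) ↑τ := by
    intro τ
    have h0 := (hU τ).cexp
    have h1 : (U ∘ ofComplex) (τ : ℂ) = U τ := by simp
    rw [h1] at h0
    exact h0
  have hconst : ∃ c : ℂ, ∀ z : ℍ, (fun z => Complex.exp (U z)) z = c := by
    refine eq_const_of_norm_invariant N (fun z => Complex.exp (U z)) ?_ ?_ ?_ ?_
    · rw [UpperHalfPlane.mdifferentiable_iff]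
      intro w hw
      exact (hd ⟨w, hw⟩).differentiableAt.differentiableWithinAt
    · intro γ hγ z
      rw [Complex.norm_exp, Complex.norm_exp, hinv γ hγ z]
    · intro δ z
      rw [hper]
    · intro δ
      obtain ⟨L, hL⟩ := hlim δ
      have : Tendsto (fun z : ℍ => Complex.exp (U (δ • z))) atImInfty (𝓝 (Complex.exp L)) :=
        (Complex.continuous_exp.tendsto L).comp hL
      exact this.isBigO_one ℝ
  obtain ⟨c, hc⟩ := hconst
  intro τ
  have h1 : HasDerivAt ((fun z => Complex.exp (U z)) ∘ ofComplex) 0 ↑τ := by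
    have : ((fun z => Complex.exp (U z)) ∘ ofComplex) = fun _ => c := by
      funext w; exact hc _
    rw [this]; exact hasDerivAt_const _ _
  have h2 := (hd τ).unique h1
  exact (mul_eq_zero.mp h2).resolve_left (Complex.exp_ne_zero _)

theorem conj_T_pow_mem_Gamma0 (N : ℕ) (δ : SL(2, ℤ)) :
    δ * ModularGroup.T ^ (N : ℤ) * δ⁻¹ ∈ Gamma0 N := by
  have h2 : ModularGroup.T ^ (N : ℤ) ∈ Gamma N :=
    CongruenceSubgroup.ModularGroup_T_pow_mem_Gamma N N dvd_rfl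
  have h3 := (CongruenceSubgroup.Gamma_normal N).conj_mem _ h2 δ
  rw [Gamma0_mem]
  exact (Gamma_mem.mp h3).2.2.1

theorem trace_conj_T_zpow (n : ℤ) (δ : SL(2, ℤ)) :
    ((δ * ModularGroup.T ^ n * δ⁻¹ : SL(2, ℤ)) : Matrix (Fin 2) (Fin 2) ℤ).trace ^ 2 = 4 := by
  rw [Matrix.SpecialLinearGroup.coe_mul, Matrix.SpecialLinearGroup.coe_mul,
    Matrix.trace_mul_cycle, ← Matrix.SpecialLinearGroup.coe_mul, inv_mul_cancel,
    Matrix.SpecialLinearGroup.coe_one, one_mul, ModularGroup.coe_T_zpow, Matrix.trace_fin_two_of]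
  norm_num

theorem smul_natCast_vadd (N : ℕ) (δ : SL(2, ℤ)) (z : ℍ) :
    δ • ((N : ℝ) +ᵥ z) = (δ * ModularGroup.T ^ (N : ℤ) * δ⁻¹) • (δ • z) := by
  have h1 : ((N : ℝ) +ᵥ z) = (ModularGroup.T ^ (N : ℤ) : SL(2, ℤ)) • z := by
    ext
    rw [ModularGroup.coe_T_zpow_smul_eq]
    simp [add_comm]
  rw [h1, ← mul_smul, ← mul_smul]
  congr 1
  group

/-- I -/
theorem eq_zero_of_periodMap_add_charInvolution (N : ℕ) [NeZero N] (a b : CuspForm (Gamma0 N) 2)
    (h : periodMap N a + charInvolution N ℂ ℂ (periodMap N b) = 0) : a = 0 ∧ b = 0 := by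
  obtain ⟨A, hA⟩ := exists_hasEquivariantPrimitive N a
  obtain ⟨B₀, hB₀⟩ := exists_hasEquivariantPrimitive N b
  set B : ℍ → ℂ := fun z => conj (B₀ (J • z)) with hBdef
  have hBd : ∀ τ : ℍ, HasDerivAt (B ∘ ofComplex) (-conj (b (J • τ))) ↑τ :=
    hasDerivAt_reflect B₀ b hB₀.1
  set p : Gamma0 N → ℂ := fun γ => periodMap N a (Additive.ofMul γ) with hp
  set q : Gamma0 N → ℂ := fun γ => charInvolution N ℂ ℂ (periodMap N b) (Additive.ofMul γ) with hq
  have hAγ : ∀ (γ : Gamma0 N) (z : ℍ), A ((γ : SL(2, ℤ)) • z) = A z + p γ := by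
    intro γ z
    rw [hp]
    simp only
    rw [periodMap_apply hA γ z]; ring
  have hBγ : ∀ (γ : Gamma0 N) (z : ℍ), B ((γ : SL(2, ℤ)) • z) = B z + conj (q γ) := by
    intro γ z
    rw [hq]
    simp only
    rw [charInvolution_apply, toMul_ofMul, periodMap_apply hB₀ (jConjGamma0 N γ) (J • z),
      jConjGamma0_coe, jConjSL_smul_J]
    simp [hBdef]
  have hsum : ∀ γ : Gamma0 N, p γ + q γ = 0 := fun γ => by
    exact DFunLike.congr_fun h (Additive.ofMul γ)
  have hpar : ∀ δ : SL(2, ℤ), p ⟨_, conj_T_pow_mem_Gamma0 N δ⟩ = 0 ∧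
      q ⟨_, conj_T_pow_mem_Gamma0 N δ⟩ = 0 := by
    intro δ
    refine ⟨?_, ?_⟩
    · exact (mem_parabolicHoms_iff.mp (periodMap_mem_parabolicHoms N a)) _
        (trace_conj_T_zpow _ δ)
    · exact (mem_parabolicHoms_iff.mp (charInvolution_mem_parabolicHoms N ℂ ℂ
        (periodMap_mem_parabolicHoms N b))) _ (trace_conj_T_zpow _ δ)
  have hAper : ∀ (δ : SL(2, ℤ)) (z : ℍ), A (δ • ((N : ℝ) +ᵥ z)) = A (δ • z) := by
    intro δ z
    rw [smul_natCast_vadd]
    have := hAγ ⟨_, conj_T_pow_mem_Gamma0 N δ⟩ (δ • z)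
    rw [(hpar δ).1, add_zero] at this
    exact this
  have hBper : ∀ (δ : SL(2, ℤ)) (z : ℍ), B (δ • ((N : ℝ) +ᵥ z)) = B (δ • z) := by
    intro δ z
    rw [smul_natCast_vadd]
    have := hBγ ⟨_, conj_T_pow_mem_Gamma0 N δ⟩ (δ • z)
    rw [(hpar δ).2, map_zero, add_zero] at this
    exact this
  have hBlim : ∀ δ : SL(2, ℤ), ∃ L : ℂ, Tendsto (fun z : ℍ => B (δ • z)) atImInfty (𝓝 L) := by
    intro δ
    obtain ⟨L, hL⟩ := hB₀.2.2.2 (jConjSL δ)
    refine ⟨conj L, ?_⟩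
    have h1 : (fun z : ℍ => B (δ • z)) = fun z => conj (B₀ (jConjSL δ • (J • z))) := by
      funext z
      rw [jConjSL_smul_J]
    rw [h1]
    exact (Complex.continuous_conj.tendsto L).comp (hL.comp tendsto_J_smul_atImInfty)
  have h1 := deriv_eq_zero_of_re_invariant N (fun z => A z + B z)
    (fun τ => a τ + -conj (b (J • τ))) (fun τ => (hA.1 τ).add (hBd τ)) ?_ ?_ ?_
  have h2 := deriv_eq_zero_of_re_invariant N (fun z => -Complex.I * (A z - B z))
    (fun τ => -Complex.I * (a τ - -conj (b (J • τ))))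
    (fun τ => ((hA.1 τ).sub (hBd τ)).const_mul _) ?_ ?_ ?_
  · have ha : ∀ τ, a τ = 0 := by
      intro τ
      have e1 := h1 τ
      have e2 := h2 τ
      have e3 : a τ - -conj (b (J • τ)) = 0 :=
        (mul_eq_zero.mp e2).resolve_left (by simp)
      linear_combination (e1 + e3) / 2
    have hb : ∀ τ, b τ = 0 := by
      intro τ
      have e1 := h1 (J • τ)
      rw [ha, zero_add, neg_eq_zero, map_eq_zero, ← mul_smul, ← sq, J_sq, one_smul] at e1
      exact e1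
    exact ⟨DFunLike.ext _ _ ha, DFunLike.ext _ _ hb⟩
  · intro γ hγ z
    have e1 := hAγ ⟨γ, hγ⟩ z
    have e2 := hBγ ⟨γ, hγ⟩ z
    have e3 := hsum ⟨γ, hγ⟩
    rw [e1, e2]
    have e4 := congrArg Complex.im e3
    simp at e4 ⊢
    linarith
  · intro δ z
    rw [hAper, hBper]
  · intro δ
    obtain ⟨L, hL⟩ := hA.2.2.2 δ
    obtain ⟨M, hM⟩ := hBlim δ
    exact ⟨_, (hL.sub hM).const_mul _⟩
  · intro γ hγ z
    have e1 := hAγ ⟨γ, hγ⟩ z
    have e2 := hBγ ⟨γ, hγ⟩ z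
    have e3 := hsum ⟨γ, hγ⟩
    rw [e1, e2]
    have e4 := congrArg Complex.re e3
    simp at e4 ⊢
    linarith
  · intro δ z
    rw [hAper, hBper]
  · intro δ
    obtain ⟨L, hL⟩ := hA.2.2.2 δ
    obtain ⟨M, hM⟩ := hBlim δ
    exact ⟨_, hL.add hM⟩

end Fermat.Agent.S21
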