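import Mathlib
import Fermat.Prelude.Def_ModularCurve_PeriodHomPair
import Fermat.Prelude.Def_ModularCurve_GenusNumerics

set_option autoImplicit false

namespace Fermat.Agent.S21

open UpperHalfPlane CongruenceSubgroup ModularCurve ModularCurve.Period Filter Topology
open scoped MatrixGroups ModularForm Manifold

/-- P1 -/
theorem exists_primitive_of_periodic {h : ℝ} (hh : 0 < h) (g : ℍ → ℂ) (hg : MDiff g)
    (hper : ∀ z : ℍ, g (h +ᵥ z) = g z) (hzero : IsZeroAtImInfty g) :
    ∃ G : ℍ → ℂ, (∀ τ : ℍ, HasDerivAt (G ∘ ofComplex) (g τ) ↑τ) ∧ Tendsto G atImInfty (𝓝 0) := by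
  sorry

/-- P2 -/
theorem exists_hasEquivariantPrimitive (N : ℕ) [NeZero N] (f : CuspForm (Gamma0 N) 2) :
    ∃ F : ℍ → ℂ, HasEquivariantPrimitive N f F := by
  sorry

/-- P3 -/
theorem periodMap_apply {N : ℕ} {f : CuspForm (Gamma0 N) 2} {F : ℍ → ℂ}
    (hF : HasEquivariantPrimitive N f F) (γ : Gamma0 N) (z : ℍ) :
    periodMap N f (Additive.ofMul γ) = F ((γ : SL(2, ℤ)) • z) - F z := by
  sorry

/-- P4 -/
theorem existsPeriodMapLinear (N : ℕ) [NeZero N] : ExistsPeriodMapLinear N := by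
  sorry

/-- P5 -/
theorem periodMap_mem_parabolicHoms (N : ℕ) [NeZero N] (f : CuspForm (Gamma0 N) 2) :
    periodMap N f ∈ parabolicHoms ℂ (Gamma0 N) ℂ := by
  sorry

/-- M -/
theorem eq_const_of_norm_invariant (N : ℕ) [NeZero N] (φ : ℍ → ℂ) (hφ : MDiff φ)
    (hinv : ∀ γ ∈ Gamma0 N, ∀ z : ℍ, ‖φ (γ • z)‖ = ‖φ z‖)
    (hper : ∀ (δ : SL(2, ℤ)) (z : ℍ), φ (δ • ((N : ℝ) +ᵥ z)) = φ (δ • z))
    (hbdd : ∀ δ : SL(2, ℤ), IsBoundedAtImInfty fun z : ℍ => φ (δ • z)) :
    ∃ c : ℂ, ∀ z, φ z = c := by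
  sorry

/-- I -/
theorem eq_zero_of_periodMap_add_charInvolution (N : ℕ) [NeZero N] (a b : CuspForm (Gamma0 N) 2)
    (h : periodMap N a + charInvolution N ℂ ℂ (periodMap N b) = 0) : a = 0 ∧ b = 0 := by
  sorry

/-- D -/
theorem finrank_parabolicHoms_le (N : ℕ) [NeZero N] :
    Module.Finite ℂ (parabolicHoms ℂ (Gamma0 N) ℂ) ∧
    (Module.finrank ℂ (parabolicHoms ℂ (Gamma0 N) ℂ) : ℚ) ≤ 2 * genusFormula N := by
  sorry

/-- S20 -/
theorem s20 (N : ℕ) [NeZero N] :
    (Module.finrank ℂ (CuspForm (CongruenceSubgroup.Gamma0 N) 2) : ℚ) =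
      ModularCurve.genusFormula N := by
  sorry

theorem finiteDimensional_cuspForm (N : ℕ) [NeZero N] :
    Module.Finite ℂ (CuspForm (CongruenceSubgroup.Gamma0 N) 2) := by
  sorry

theorem main (N : ℕ) [NeZero N] :
    Function.Injective (ModularCurve.periodHomPair N)
      ∧ LinearMap.range (ModularCurve.periodHomPair N)
          = ModularCurve.Period.parabolicHoms ℂ (CongruenceSubgroup.Gamma0 N) ℂ := by
  obtain ⟨pml, hpml, hdef⟩ := periodHomPair_def N (existsPeriodMapLinear N)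
  have hinj : Function.Injective (ModularCurve.periodHomPair N) := by
    rw [injective_iff_map_eq_zero]
    rintro ⟨f, g⟩ hfg
    rw [hdef] at hfg
    have h1 : periodMap N (f + g) + charInvolution N ℂ ℂ (periodMap N (f - g)) = 0 := by
      rw [← hpml, ← hpml, map_add, map_sub, map_sub, ← hfg]
      simp only [LinearMap.coprod_apply, LinearMap.comp_apply, LinearMap.add_apply,
        LinearMap.sub_apply, LinearMap.id_apply]
      abel
    obtain ⟨h2, h3⟩ := eq_zero_of_periodMap_add_charInvolution N _ _ h1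
    have hf : f = 0 := by
      have : (2 : ℂ) • f = 0 := by
        rw [two_smul]
        calc f + f = (f + g) + (f - g) := by abel
          _ = 0 := by rw [h2, h3, add_zero]
      exact (smul_eq_zero.mp this).resolve_left two_ne_zero
    have hg : g = 0 := by rw [hf, zero_add] at h2; exact h2
    rw [hf, hg]
    rfl
  refine ⟨hinj, ?_⟩
  obtain ⟨hfin, hle⟩ := finrank_parabolicHoms_le N
  haveI := hfin
  haveI := finiteDimensional_cuspForm N
  have hrange : LinearMap.range (ModularCurve.periodHomPair N) ≤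
      parabolicHoms ℂ (Gamma0 N) ℂ := by
    rintro _ ⟨⟨f, g⟩, rfl⟩
    rw [hdef]
    simp only [LinearMap.coprod_apply, LinearMap.comp_apply, LinearMap.add_apply,
        LinearMap.sub_apply, LinearMap.id_apply, hpml]
    have hf := periodMap_mem_parabolicHoms N f
    have hg := periodMap_mem_parabolicHoms N g
    exact Submodule.add_mem _ (Submodule.add_mem _ hf (charInvolution_mem_parabolicHoms N ℂ ℂ hf))
      (Submodule.sub_mem _ hg (charInvolution_mem_parabolicHoms N ℂ ℂ hg))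
  apply Submodule.eq_of_le_of_finrank_le hrange
  rw [LinearMap.finrank_range_of_inj hinj, Module.finrank_prod]
  have h20 := s20 N
  have : (Module.finrank ℂ (parabolicHoms ℂ (Gamma0 N) ℂ) : ℚ) ≤
      ((Module.finrank ℂ (CuspForm (Gamma0 N) 2) + Module.finrank ℂ (CuspForm (Gamma0 N) 2) : ℕ) :
        ℚ) := by
    push_cast
    rw [h20]
    linarith
  exact_mod_cast this

end Fermat.Agent.S21
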